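import Fermat.Agent.LT.A2.H54.LocFinSpec

/-!
# Row LT, wall A2, station A2.03.1.1.06 (local finite Weil family), leaf 19 `LeafAxTor` (helper227)

OFF-MAIN.  `leafAxTor227 : LF54.LeafAxTor`, VERBATIM, no hypothesis.

Pure algebra, valid over every normed field `k` (`axTor_general227`):
`d((det μ' m)⁻¹) d(det μ') = d((det m)⁻¹)`, `(μ' m)⁻¹ = m⁻¹ μ'⁻¹`, `actL (A B) = actL A ∘ actL B`,
`√‖det (μ' m)‖ = √‖det μ'‖ √‖det m‖`.
-/

set_option autoImplicit false

open IsDedekindDomain NumberField MeasureTheory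
open scoped Topology

noncomputable section

namespace Fermat.Agent.LT.A2.H227

open Fermat.Agent.LT.A2 Fermat.Agent.LT.A2.WX467 Fermat.Agent.LT.A2.LF54

/-- `actL` is an action: `actL (A B) ξ = actL A (actL B ξ)`. -/
theorem actL_mul227 {k : Type} [Field k] (A B : Matrix (Fin 2) (Fin 2) k) (ξ : k × k) :
    actL (A * B) ξ = actL A (actL B ξ) := by
  unfold actL
  simp only [Matrix.mul_apply, Fin.sum_univ_two]
  refine Prod.ext ?_ ?_ <;> ring

/-- `d((det μ' · det m)⁻¹) d(det μ') = d((det m)⁻¹)`. -/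
theorem diag_mul227 {k : Type} [Field k] (a b : k) (ha : a ≠ 0) :
    (!![1, 0; 0, (a * b)⁻¹] : Matrix (Fin 2) (Fin 2) k) * !![1, 0; 0, a] = !![1, 0; 0, b⁻¹] := by
  ext i j
  fin_cases i <;> fin_cases j <;> simp [Matrix.mul_apply, Fin.sum_univ_two]
  field_simp

/-- **AX-TOR over any normed field.** -/
theorem axTor_general227 {k : Type} [NormedField k] (t n : k) (ψ : k → ℂ)
    (μ : @Measure k (borel k)) (γ : ℂ) (η : k → ℂ) (Φ : k × k → ℂ) :
    AxTorP t n (Fof t n ψ μ γ η Φ) := by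
  intro μ' _ hdet g m ξ _
  have h1 : (!![1, 0; 0, ((μ' * m).det)⁻¹] * (!![1, 0; 0, μ'.det] * g)
      : Matrix (Fin 2) (Fin 2) k) = !![1, 0; 0, (m.det)⁻¹] * g := by
    rw [← Matrix.mul_assoc, Matrix.det_mul, diag_mul227 _ _ hdet]
  have hs : Real.sqrt ‖μ'.det‖ ≠ 0 := by
    rw [Real.sqrt_ne_zero (norm_nonneg _)]
    exact norm_ne_zero_iff.mpr hdet
  unfold Fof lopL
  rw [h1, Matrix.mul_inv_rev, actL_mul227, Matrix.det_mul, norm_mul,
    Real.sqrt_mul (norm_nonneg _), mul_inv, ← mul_assoc]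
  congr 1
  push_cast
  rw [← mul_assoc, mul_inv_cancel₀ (by exact_mod_cast hs), one_mul]

/-- **Leaf 19 AX-TOR**, verbatim. -/
theorem leafAxTor227 : LeafAxTor := by
  intro K _ _ v t n ψ μ γ η Φ
  exact axTor_general227 t n ψ μ γ η Φ

end Fermat.Agent.LT.A2.H227

end
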